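/-
P-CFT / GA-SHAP (row 958), part (a) (helper24): the FRAME lemma (cone bookkeeping, no Shapiro).

For an arithmetic datum `𝔄`, a place `v` and a coefficient module `M`:

* `bdLin 𝔄 M v : H²(Γ_v, M) →ₗ H_c³(M)`, the boundary map on local classes supported at `v`
  (`[a] ↦ [(0, a at v)]`);
* `range_bdLin` : its range is `Fermat.Agent.H13.Cft.bdRange 𝔄 v M`;
* `bdLin_res_eq_zero` : `bdLin (res_v z) = 0` for every global class `z ∈ H²(G, M)` whose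
  restrictions `res_w z` vanish for all `w ≠ v`.
-/
import Fermat.Agent.H13.Cft.StepD3
import Fermat.Agent.H75.LocFinite

set_option autoImplicit false

universe u

open CategoryTheory

namespace Fermat.Agent.H24.GaShap

open Fermat.Agent.H13.Cft Fermat.Agent.H19 Fermat.Agent.H34 Fermat.Agent.H75.LocFin
  Fermat.Agent.H77

noncomputable section

variable {k G : Type u} [Field k] [Group G] (𝔄 : ArithDatum k G) (M : Rep.{u} k G)

open Classical in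
/-- The family of local classes supported at `v`. -/
def locSingleH (v : 𝔄.ι) (n : ℕ) :
    lvlH (𝔄.lvlv v) (Rep.res (𝔄.loc v) M) n →ₗ[k] (locComplex 𝔄 M).homology n :=
  (locHomologyEquiv 𝔄 M n).symm.toLinearMap ∘ₗ
    LinearMap.single k (fun w => lvlH (𝔄.lvlv w) (Rep.res (𝔄.loc w) M) n) v

open Classical in
theorem locHomologyEquiv_locSingleH (v : 𝔄.ι) (n : ℕ)
    (x : lvlH (𝔄.lvlv v) (Rep.res (𝔄.loc v) M) n) :
    locHomologyEquiv 𝔄 M n (locSingleH 𝔄 M v n x) = Pi.single v x := by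
  unfold locSingleH
  rw [LinearMap.comp_apply, LinearEquiv.coe_coe, LinearEquiv.apply_symm_apply]
  rfl

open Classical in
/-- The class of a cocycle supported at `v`. -/
theorem locSingleH_lvlHMk (v : 𝔄.ι) (n : ℕ)
    (a : lvlCochains (𝔄.lvlv v) (Rep.res (𝔄.loc v) M) n)
    (ha : lvlD (𝔄.lvlv v) (Rep.res (𝔄.loc v) M) n a = 0)
    (h : ((locComplex 𝔄 M).d n (n + 1)).hom (frcLocSingle 𝔄 M v n a) = 0) :
    locSingleH 𝔄 M v n (lvlHMk (𝔄.lvlv v) (Rep.res (𝔄.loc v) M) n a ha)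
      = hMk (locComplex 𝔄 M) n (frcLocSingle 𝔄 M v n a) h := by
  apply (locHomologyEquiv 𝔄 M n).injective
  rw [locHomologyEquiv_locSingleH]
  funext w
  have hx : ∀ w, lvlD (𝔄.lvlv w) (Rep.res (𝔄.loc w) M) n
      ((Pi.single v a : ∀ w, lvlCochains (𝔄.lvlv w) (Rep.res (𝔄.loc w) M) n) w) = 0 := by
    intro w
    by_cases hw : w = v
    · subst hw
      rw [Pi.single_eq_same]
      exact ha
    · rw [Pi.single_eq_of_ne hw, map_zero]
  have h1 : hMk (locComplex 𝔄 M) n (frcLocSingle 𝔄 M v n a) h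
      = locHMk 𝔄 M n (Pi.single v a) hx := rfl
  rw [h1]
  have h2 := locHomologyToPi_locHMk 𝔄 M n (Pi.single v a) hx w
  have h3 : locHomologyEquiv 𝔄 M n (locHMk 𝔄 M n (Pi.single v a) hx) w
      = locHomologyToPi 𝔄 M n (locHMk 𝔄 M n (Pi.single v a) hx) w := rfl
  rw [h3, h2]
  by_cases hw : w = v
  · subst hw
    rw [Pi.single_eq_same]
    exact (lvlHMk_congr (𝔄.lvlv w) (Rep.res (𝔄.loc w) M) n (by rw [Pi.single_eq_same]) (hx w) ha).symm
  · rw [Pi.single_eq_of_ne hw]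
    have h0 : lvlD (𝔄.lvlv w) (Rep.res (𝔄.loc w) M) n 0 = 0 := map_zero _
    rw [lvlHMk_congr (𝔄.lvlv w) (Rep.res (𝔄.loc w) M) n
      (show (Pi.single v a : ∀ w, lvlCochains (𝔄.lvlv w) (Rep.res (𝔄.loc w) M) n) w = 0 by
        rw [Pi.single_eq_of_ne hw]) (hx w) h0]
    exact (lvlHMk_zero _ _ _ h0).symm

/-- The boundary map on the local classes at `v`: `[a] ↦ [(0, a at v)]`. -/
def bdLin (v : 𝔄.ι) :
    lvlH (𝔄.lvlv v) (Rep.res (𝔄.loc v) M) 2 →ₗ[k] (ccComplex 𝔄 M).homology 3 :=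
  coneBdLin (resTot 𝔄 M) 2 ∘ₗ locSingleH 𝔄 M v 2

theorem bdLin_apply (v : 𝔄.ι) (y : lvlH (𝔄.lvlv v) (Rep.res (𝔄.loc v) M) 2) :
    bdLin 𝔄 M v y = coneBdLin (resTot 𝔄 M) 2 (locSingleH 𝔄 M v 2 y) := rfl

theorem bdLin_lvlHMk (v : 𝔄.ι)
    (a : lvlCochains (𝔄.lvlv v) (Rep.res (𝔄.loc v) M) 2)
    (ha : lvlD (𝔄.lvlv v) (Rep.res (𝔄.loc v) M) 2 a = 0) :
    bdLin 𝔄 M v (lvlHMk (𝔄.lvlv v) (Rep.res (𝔄.loc v) M) 2 a ha)
      = (coneBdCocycles (resTot 𝔄 M) 2 ∘ₗ locSingleCocycles 𝔄 M v 2)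
          ⟨a, LinearMap.mem_ker.2 ha⟩ := by
  have h : ((locComplex 𝔄 M).d 2 (2 + 1)).hom (frcLocSingle 𝔄 M v 2 a) = 0 := by
    rw [frcLocSingle_d, ha, map_zero]
  rw [bdLin_apply, locSingleH_lvlHMk 𝔄 M v 2 a ha h,
    coneBdLin_hMk (resTot 𝔄 M) 2 _ h (cone_inr_cocycle (resTot 𝔄 M) 2 _ h)]
  rfl

/-- **(a1)** The range of `bdLin` is the module of boundary classes at `v`. -/
theorem range_bdLin (v : 𝔄.ι) : LinearMap.range (bdLin 𝔄 M v) = bdRange 𝔄 v M := by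
  apply le_antisymm
  · rintro x ⟨y, rfl⟩
    obtain ⟨a, ha, rfl⟩ := lvlHMk_surjective (𝔄.lvlv v) (Rep.res (𝔄.loc v) M) 2 y
    rw [bdLin_lvlHMk]
    exact ⟨_, rfl⟩
  · rintro x ⟨a, rfl⟩
    refine ⟨lvlHMk (𝔄.lvlv v) (Rep.res (𝔄.loc v) M) 2 a.1 (LinearMap.mem_ker.1 a.2), ?_⟩
    rw [bdLin_lvlHMk]
    rfl

/-- The components of the total restriction of a global class. -/
theorem locHomologyEquiv_resTot (n : ℕ) (z : lvlH 𝔄.lvl M n) (w : 𝔄.ι) :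
    locHomologyEquiv 𝔄 M n ((HomologicalComplex.homologyMap (resTot 𝔄 M) n).hom z) w
      = (HomologicalComplex.homologyMap (lvlRes (𝔄.loc w) (𝔄.compat w) M) n).hom z := by
  obtain ⟨x, hx, rfl⟩ := lvlHMk_surjective 𝔄.lvl M n z
  rw [lvlHMk_naturality 𝔄.lvl M n (𝔄.lvlv w) (Rep.res (𝔄.loc w) M)
    (lvlRes (𝔄.loc w) (𝔄.compat w) M) x hx]
  have hx' : ((lvlComplex 𝔄.lvl M).d n (n + 1)).hom x = 0 :=
    (lvlComplex_d_hom_apply 𝔄.lvl M n x).trans hx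
  have h1 : lvlHMk 𝔄.lvl M n x hx = hMk (lvlComplex 𝔄.lvl M) n x hx' := rfl
  rw [h1, hapi_homologyMap_hMk' (lvlComplex 𝔄.lvl M) n (locComplex 𝔄 M) (resTot 𝔄 M) x hx']
  have hy : ∀ v, lvlD (𝔄.lvlv v) (Rep.res (𝔄.loc v) M) n
      ((((resTot 𝔄 M).f n).hom x : ∀ v, lvlCochains (𝔄.lvlv v) (Rep.res (𝔄.loc v) M) n) v)
        = 0 :=
    (locD_eq_zero_iff 𝔄 M n _).1 (hapi_map_mem_ker (lvlComplex 𝔄.lvl M) n (resTot 𝔄 M) x hx')
  have h2 : hMk (locComplex 𝔄 M) n (((resTot 𝔄 M).f n).hom x)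
      (hapi_map_mem_ker (lvlComplex 𝔄.lvl M) n (resTot 𝔄 M) x hx')
      = locHMk 𝔄 M n (((resTot 𝔄 M).f n).hom x) hy := rfl
  rw [h2]
  exact locHomologyToPi_locHMk 𝔄 M n _ hy w

open Classical in
/-- **(a2)** `bdLin` kills the restriction at `v` of every global class whose restrictions at
the other places vanish. -/
theorem bdLin_res_eq_zero (v : 𝔄.ι) (z : lvlH 𝔄.lvl M 2)
    (hz : ∀ w, w ≠ v →
      (HomologicalComplex.homologyMap (lvlRes (𝔄.loc w) (𝔄.compat w) M) 2).hom z = 0) :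
    bdLin 𝔄 M v
      ((HomologicalComplex.homologyMap (lvlRes (𝔄.loc v) (𝔄.compat v) M) 2).hom z) = 0 := by
  have h1 : locSingleH 𝔄 M v 2
      ((HomologicalComplex.homologyMap (lvlRes (𝔄.loc v) (𝔄.compat v) M) 2).hom z)
      = (HomologicalComplex.homologyMap (resTot 𝔄 M) 2).hom z := by
    apply (locHomologyEquiv 𝔄 M 2).injective
    rw [locHomologyEquiv_locSingleH]
    funext w
    rw [locHomologyEquiv_resTot]
    by_cases hw : w = v
    · subst hw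
      rw [Pi.single_eq_same]
    · rw [Pi.single_eq_of_ne hw, hz w hw]
  rw [bdLin_apply, h1]
  exact (cone_exact_phi_bd (resTot 𝔄 M) 2 _).2 ⟨z, rfl⟩

end

end Fermat.Agent.H24.GaShap
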