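/-
P-CFT / GA-SHAP (row 958), part (c) (helper24): the LINEAR ALGEBRA lemma, Mathlib only.

`span_one_of_pairs_bij` : let `W ≅ ∏ i, A i` (via the components `m i : W → A i`, `ι` finite), every
`A i` spanned by one element, `β : W → X` linear.  If for every pair `i ≠ j` the kernel of `β`
contains a vector supported in `{i, j}` whose components at `i` and `j` are not both zero, then
the range of `β` is spanned by one element.

(Classically: `W = ⊕_{w ∣ p} H²(K_w, μ_p)`, `β : W → H_c³`, the kernel contains the images of the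
"pair classes".)
-/
import Mathlib

set_option autoImplicit false

namespace Fermat.Agent.H24.GaShap

section linalg

variable {k : Type*} [Field k] {W X : Type*} [AddCommGroup W] [Module k W]
  [AddCommGroup X] [Module k X] {ι : Type*} {A : ι → Type*}
  [∀ i, AddCommGroup (A i)] [∀ i, Module k (A i)]

/-- If the components `m i` are jointly injective and `w`, `w'` have the same components, they
are equal. -/
theorem eq_of_components (m : ∀ i, W →ₗ[k] A i)
    (hm : Function.Injective (fun (w : W) (i : ι) => m i w)) {w w' : W}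
    (h : ∀ i, m i w = m i w') : w = w' :=
  hm (funext h)

/-- **Linear algebra core of GA-SHAP.** -/
theorem span_one_of_pairs_bij [Finite ι] (m : ∀ i, W →ₗ[k] A i)
    (hm : Function.Bijective (fun (w : W) (i : ι) => m i w))
    (hA : ∀ i, ∃ e : A i, ∀ y : A i, ∃ c : k, y = c • e)
    (β : W →ₗ[k] X)
    (hpair : ∀ i j, i ≠ j → ∃ w : W, β w = 0 ∧ (∀ l, l ≠ i → l ≠ j → m l w = 0) ∧
      ¬ (m i w = 0 ∧ m j w = 0)) :
    ∃ x₀ ∈ LinearMap.range β, ∀ x ∈ LinearMap.range β, ∃ c : k, x = c • x₀ := by
  classical
  letI : Fintype ι := Fintype.ofFinite ι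
  choose e he using hA
  -- the vectors supported at one index
  have hs : ∀ i, ∃ s : W, ∀ l, m l s = (Pi.single i (e i) : ∀ l, A l) l := by
    intro i
    obtain ⟨s, hs⟩ := hm.2 (Pi.single i (e i))
    exact ⟨s, fun l => congrFun hs l⟩
  choose s hs using hs
  have hs_self : ∀ i, m i (s i) = e i := fun i => by rw [hs i i, Pi.single_eq_same]
  have hs_ne : ∀ i l, l ≠ i → m l (s i) = 0 := fun i l hl => by
    rw [hs i l, Pi.single_eq_of_ne hl]
  -- decomposition of every vector
  have hdec : ∀ (w : W) (c : ι → k), (∀ i, m i w = c i • e i) → w = ∑ i, c i • s i := by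
    intro w c hc
    refine eq_of_components m hm.1 fun l => ?_
    rw [map_sum, hc l]
    rw [Finset.sum_eq_single l]
    · rw [map_smul, hs_self]
    · intro i _ hi
      rw [map_smul, hs_ne i l (Ne.symm hi), smul_zero]
    · intro h
      exact absurd (Finset.mem_univ l) h
  by_cases hall : ∀ i, β (s i) = 0
  · refine ⟨0, Submodule.zero_mem _, ?_⟩
    rintro x ⟨w, rfl⟩
    choose c hc using fun i => he i (m i w)
    refine ⟨0, ?_⟩
    rw [hdec w c hc, map_sum, zero_smul]
    exact Finset.sum_eq_zero fun i _ => by rw [map_smul, hall i, smul_zero]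
  · obtain ⟨i₀, hi₀⟩ := not_forall.mp hall
    refine ⟨β (s i₀), ⟨s i₀, rfl⟩, ?_⟩
    -- every `β (s i)` is a multiple of `β (s i₀)`
    have hmult : ∀ i, ∃ d : k, β (s i) = d • β (s i₀) := by
      intro i
      by_cases hi : i = i₀
      · exact ⟨1, by rw [hi, one_smul]⟩
      obtain ⟨w, hw0, hwl, hwn⟩ := hpair i₀ i (Ne.symm hi)
      obtain ⟨a, ha⟩ := he i₀ (m i₀ w)
      obtain ⟨a', ha'⟩ := he i (m i w)
      have hw : w = a • s i₀ + a' • s i := by
        refine eq_of_components m hm.1 fun l => ?_
        rw [map_add, map_smul, map_smul]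
        by_cases hl0 : l = i₀
        · subst hl0
          rw [hs_self, hs_ne i l (Ne.symm hi), smul_zero, add_zero, ha]
        · by_cases hl : l = i
          · subst hl
            rw [hs_self, hs_ne i₀ l hl0, smul_zero, zero_add, ha']
          · rw [hs_ne i₀ l hl0, hs_ne i l hl, smul_zero, smul_zero, add_zero]
            exact hwl l hl0 hl
      have hβ : a • β (s i₀) + a' • β (s i) = 0 := by
        rw [← map_smul, ← map_smul, ← map_add, ← hw, hw0]
      have ha'0 : a' ≠ 0 := by
        intro h0
        rw [h0, zero_smul, add_zero] at hβ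
        have ha0 : a = 0 := by
          rcases smul_eq_zero.mp hβ with h | h
          · exact h
          · exact absurd h hi₀
        apply hwn
        constructor
        · rw [ha, ha0, zero_smul]
        · rw [ha', h0, zero_smul]
      refine ⟨-(a'⁻¹ * a), ?_⟩
      have h1 : a' • β (s i) = -(a • β (s i₀)) := eq_neg_of_add_eq_zero_right hβ
      have h2 : β (s i) = a'⁻¹ • (a' • β (s i)) := by
        rw [smul_smul, inv_mul_cancel₀ ha'0, one_smul]
      rw [h2, h1, smul_neg, smul_smul, neg_smul]
    choose d hd using hmult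
    rintro x ⟨w, rfl⟩
    choose c hc using fun i => he i (m i w)
    refine ⟨∑ i, c i * d i, ?_⟩
    rw [hdec w c hc, map_sum, Finset.sum_smul]
    refine Finset.sum_congr rfl fun i _ => ?_
    rw [map_smul, hd i, smul_smul]

/-- A finite-dimensional space of dimension `≤ 1` is spanned by one element. -/
theorem exists_gen_of_finrank_le_one {V : Type*} [AddCommGroup V] [Module k V]
    [Module.Finite k V] (h : Module.finrank k V ≤ 1) : ∃ e : V, ∀ y : V, ∃ c : k, y = c • e := by
  obtain ⟨e, he⟩ := finrank_le_one_iff.mp h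
  exact ⟨e, fun y => by obtain ⟨c, hc⟩ := he y; exact ⟨c, hc.symm⟩⟩

end linalg

end Fermat.Agent.H24.GaShap
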