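/-
P-CFT / GA-SHAP (row 958), parts (a), (c), (e) in the EXACT shapes requested by helper38
(helper24).

With `β := coneBdCocycles (resTot 𝔄 M) 2 ∘ₗ locSingleCocycles 𝔄 M v 2` (range = `bdRange 𝔄 v M`):

* `bd_eq_zero_of_class_zero` (a1) : `β a = 0` if the class of the local cocycle `a` is zero;
* `bd_locRes_eq_zero`        (a2) : `β (res_v z) = 0` for a global `2`-cocycle `z` whose
                                    restrictions at all `w ≠ v` are coboundaries;
* `span_one_of_pairs`        (c)  : the linear algebra lemma (cocycle form: components `π g`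
                                    jointly surjective, `β` factoring through them);
* `bdRange_span_of_iso`      (e)  : "spanned by one element" is invariant under isomorphisms
                                    of the coefficients (from `bdRangeNat`, helper44).
-/
import Fermat.Agent.H24.GaShap.BdLin
import Fermat.Agent.H24.GaShap.LinAlg
import Fermat.Agent.H44.SD.BdNat

set_option autoImplicit false

universe u

open CategoryTheory

namespace Fermat.Agent.H24.GaShap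

open Fermat.Agent.H13.Cft Fermat.Agent.H19 Fermat.Agent.H34 Fermat.Agent.H75.LocFin
  Fermat.Agent.H77 Fermat.Agent.H53

section frame

variable {k G : Type u} [Field k] [Group G] (𝔄 : ArithDatum k G) (M : Rep.{u} k G)

/-- `β a = bdLin [a]`. -/
theorem bd_eq_bdLin (v : 𝔄.ι)
    (a : LinearMap.ker (lvlD (𝔄.lvlv v) (Rep.res (𝔄.loc v) M) 2)) :
    (coneBdCocycles (resTot 𝔄 M) 2 ∘ₗ locSingleCocycles 𝔄 M v 2) a
      = bdLin 𝔄 M v (lvlCocyclesToH (𝔄.lvlv v) (Rep.res (𝔄.loc v) M) 2 a) := by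
  rw [lvlCocyclesToH_apply, bdLin_lvlHMk]

/-- **(a1)** `β` kills the local coboundaries. -/
theorem bd_eq_zero_of_class_zero (v : 𝔄.ι)
    (a : LinearMap.ker (lvlD (𝔄.lvlv v) (Rep.res (𝔄.loc v) M) 2))
    (h : lvlCocyclesToH (𝔄.lvlv v) (Rep.res (𝔄.loc v) M) 2 a = 0) :
    (coneBdCocycles (resTot 𝔄 M) 2 ∘ₗ locSingleCocycles 𝔄 M v 2) a = 0 := by
  rw [bd_eq_bdLin, h]
  exact map_zero _

/-- **(a2)** `β` kills the restriction at `v` of a global `2`-cocycle whose restrictions at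
the other places are coboundaries. -/
theorem bd_locRes_eq_zero (v : 𝔄.ι) (z : lvlCochains 𝔄.lvl M 2) (hz : lvlD 𝔄.lvl M 2 z = 0)
    (hloc : ∀ w, w ≠ v → ∃ b : lvlCochains (𝔄.lvlv w) (Rep.res (𝔄.loc w) M) 1,
      lvlD (𝔄.lvlv w) (Rep.res (𝔄.loc w) M) 1 b = locRes 𝔄 M w 2 z)
    (hv : lvlD (𝔄.lvlv v) (Rep.res (𝔄.loc v) M) 2 (locRes 𝔄 M v 2 z) = 0) :
    (coneBdCocycles (resTot 𝔄 M) 2 ∘ₗ locSingleCocycles 𝔄 M v 2)
      ⟨locRes 𝔄 M v 2 z, LinearMap.mem_ker.2 hv⟩ = 0 := by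
  rw [bd_eq_bdLin, lvlCocyclesToH_apply]
  have hres : ∀ w, (HomologicalComplex.homologyMap (lvlRes (𝔄.loc w) (𝔄.compat w) M) 2).hom
      (lvlHMk 𝔄.lvl M 2 z hz)
      = lvlHMk (𝔄.lvlv w) (Rep.res (𝔄.loc w) M) 2 (locRes 𝔄 M w 2 z)
          (lvlD_map_eq_zero 𝔄.lvl M 2 (𝔄.lvlv w) (Rep.res (𝔄.loc w) M)
            (lvlRes (𝔄.loc w) (𝔄.compat w) M) z hz) :=
    fun w => lvlHMk_naturality 𝔄.lvl M 2 (𝔄.lvlv w) (Rep.res (𝔄.loc w) M)
      (lvlRes (𝔄.loc w) (𝔄.compat w) M) z hz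
  have h0 := bdLin_res_eq_zero 𝔄 M v (lvlHMk 𝔄.lvl M 2 z hz) (fun w hw => by
    rw [hres w]
    exact (lvlHMk_succ_eq_zero_iff (𝔄.lvlv w) (Rep.res (𝔄.loc w) M) 1 _ _).2 (hloc w hw))
  rw [hres v] at h0
  exact h0

/-- **(e)** "Spanned by one element" is invariant under isomorphisms of the coefficients. -/
theorem bdRange_span_of_iso (hbd : BdRangeNatStatement.{u}) (v : 𝔄.ι) {M M' : Rep.{u} k G}
    (e : M ≅ M')
    (h : ∃ x₀ ∈ bdRange 𝔄 v M', ∀ x ∈ bdRange 𝔄 v M', ∃ c : k, x = c • x₀) :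
    ∃ x₀ ∈ bdRange 𝔄 v M, ∀ x ∈ bdRange 𝔄 v M, ∃ c : k, x = c • x₀ := by
  obtain ⟨x₀, hx₀, hspan⟩ := h
  set F := HomologicalComplex.homologyMap ((ccFunctor 𝔄).map e.hom) 3 with hF
  set F' := HomologicalComplex.homologyMap ((ccFunctor 𝔄).map e.inv) 3 with hF'
  have hcomp : F ≫ F' = 𝟙 _ := by
    rw [hF, hF', ← HomologicalComplex.homologyMap_comp, ← CategoryTheory.Functor.map_comp,
      e.hom_inv_id, CategoryTheory.Functor.map_id, HomologicalComplex.homologyMap_id]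
  have hFF' : ∀ x, F'.hom (F.hom x) = x := fun x => by
    have := congrArg (fun f => f.hom x) hcomp
    exact this
  refine ⟨F'.hom x₀, hbd 𝔄 v M' M e.inv x₀ hx₀, fun x hx => ?_⟩
  obtain ⟨c, hc⟩ := hspan (F.hom x) (hbd 𝔄 v M M' e.hom x hx)
  refine ⟨c, ?_⟩
  rw [← hFF' x, hc]
  exact LinearMap.map_smul F'.hom c x₀

end frame

section linalg

/-- **(c)** The linear algebra lemma in cocycle form: the components `π g : Z → V g` are
jointly surjective, `β` factors through them, every `V g` is spanned by one element, and for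
every pair `g ≠ g'` the kernel of `β` contains an element supported in `{g, g'}` whose
components at `g`, `g'` are not both zero.  Then the range of `β` is spanned by one element. -/
theorem span_one_of_pairs {k : Type*} [Field k] {Z H : Type*} [AddCommGroup Z] [Module k Z]
    [AddCommGroup H] [Module k H] (β : Z →ₗ[k] H) {R : Type*} [Fintype R] [DecidableEq R]
    (V : R → Type*) [∀ g, AddCommGroup (V g)] [∀ g, Module k (V g)]
    (hV : ∀ g, ∃ e : V g, ∀ x : V g, ∃ c : k, x = c • e)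
    (π : ∀ g, Z →ₗ[k] V g)
    (h1 : ∀ z, (∀ g, π g z = 0) → β z = 0)
    (h2 : ∀ w : (∀ g, V g), ∃ z, ∀ g, π g z = w g)
    (h3 : ∀ g g', g ≠ g' → ∃ z, β z = 0 ∧ (∀ h, h ≠ g → h ≠ g' → π h z = 0) ∧
      ¬ (π g z = 0 ∧ π g' z = 0)) :
    ∃ x₀ ∈ LinearMap.range β, ∀ x ∈ LinearMap.range β, ∃ c : k, x = c • x₀ := by
  classical
  -- pass to the quotient `W = Z / ⋂ ker π g`
  let P : Z →ₗ[k] (∀ g, V g) := LinearMap.pi π
  have hP : ∀ z g, P z g = π g z := fun z g => rfl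
  have hker : LinearMap.ker P ≤ LinearMap.ker β := by
    intro z hz
    rw [LinearMap.mem_ker] at hz ⊢
    exact h1 z fun g => by rw [← hP, hz]; rfl
  let W := Z ⧸ LinearMap.ker P
  let βW : W →ₗ[k] H := (LinearMap.ker P).liftQ β hker
  let m : ∀ g, W →ₗ[k] V g := fun g =>
    (LinearMap.ker P).liftQ (π g) (by
      intro z hz
      rw [LinearMap.mem_ker] at hz ⊢
      rw [← hP, hz]; rfl)
  have hm_mk : ∀ g z, m g (Submodule.Quotient.mk z) = π g z := fun g z => rfl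
  have hβ_mk : ∀ z, βW (Submodule.Quotient.mk z) = β z := fun z => rfl
  have hbij : Function.Bijective (fun (w : W) (g : R) => m g w) := by
    constructor
    · intro w w' hww
      obtain ⟨z, rfl⟩ := Submodule.Quotient.mk_surjective _ w
      obtain ⟨z', rfl⟩ := Submodule.Quotient.mk_surjective _ w'
      rw [Submodule.Quotient.eq, LinearMap.mem_ker]
      funext g
      have := congrFun hww g
      simp only [hm_mk] at this
      rw [hP, map_sub, this, sub_self]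
      rfl
    · intro w
      obtain ⟨z, hz⟩ := h2 w
      exact ⟨Submodule.Quotient.mk z, funext fun g => (hm_mk g z).trans (hz g)⟩
  have hpair : ∀ i j, i ≠ j → ∃ w : W, βW w = 0 ∧ (∀ l, l ≠ i → l ≠ j → m l w = 0) ∧
      ¬ (m i w = 0 ∧ m j w = 0) := by
    intro i j hij
    obtain ⟨z, hz0, hzl, hzn⟩ := h3 i j hij
    exact ⟨Submodule.Quotient.mk z, hz0, hzl, hzn⟩
  obtain ⟨x₀, ⟨w₀, hw₀⟩, hx⟩ := span_one_of_pairs_bij m hbij hV βW hpair
  obtain ⟨z₀, rfl⟩ := Submodule.Quotient.mk_surjective _ w₀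
  refine ⟨x₀, ⟨z₀, hw₀⟩, ?_⟩
  rintro x ⟨z, rfl⟩
  exact hx (β z) ⟨Submodule.Quotient.mk z, rfl⟩

end linalg

end Fermat.Agent.H24.GaShap
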